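import Fermat.Agent.ES.Units.Dif
import Mathlib.NumberTheory.ModularForms.EisensteinSeries.QExpansion
import Mathlib.Analysis.Normed.Group.Tannery
import Mathlib.RingTheory.RootsOfUnity.Complex

/-!
# Row sums of lattice series

For a row kernel `F Q = ∑ rᵏ Qʳ`, `∑ₙ (u+n)⁻⁽ᵏ⁺¹⁾ = (-2πi)ᵏ⁺¹/k! · F Q`, `Q = e^{2πiu}`, for every
non-integral `u`, and its value on a row of division points; `kFun` is the case `k = 1`.
-/

set_option autoImplicit false

open Filter Topology UpperHalfPlane Complex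
open scoped PeriodPair MatrixGroups Real

namespace FermatAgent.ES

/-- `Q/(1-Q)²`. -/
noncomputable def kFun (Q : ℂ) : ℂ := Q / (1 - Q) ^ 2

theorem kFun_inv (Q : ℂ) : kFun Q⁻¹ = kFun Q := by
  rcases eq_or_ne Q 0 with rfl | h0
  · simp
  rcases eq_or_ne Q 1 with rfl | h1
  · simp
  simp only [kFun]
  have e : (1 - Q⁻¹) = -(1 - Q) / Q := by field_simp; ring
  rw [e, div_pow, neg_sq]
  field_simp

theorem hasSum_kFun {Q : ℂ} (h : ‖Q‖ < 1) : HasSum (fun r : ℕ => (r : ℂ) * Q ^ r) (kFun Q) :=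
  hasSum_coe_mul_geometric_of_norm_lt_one h

/-- `F Q = ∑ rᵏ Qʳ` inside the unit disc, `F Q⁻¹ = (-1)ᵏ⁺¹ F Q`, continuous away from `1`. -/
structure RowKernel (k : ℕ) (F : ℂ → ℂ) : Prop where
  pos : 1 ≤ k
  hasSum : ∀ {Q : ℂ}, ‖Q‖ < 1 → HasSum (fun r : ℕ => (r : ℂ) ^ k * Q ^ r) (F Q)
  inv : ∀ Q : ℂ, F Q⁻¹ = (-1) ^ (k + 1) * F Q
  cont : ∀ {Q : ℂ}, Q ≠ 1 → ContinuousAt F Q

variable {k : ℕ} {F : ℂ → ℂ}

section

variable (hF : RowKernel k F)
include hF

/-- A row of the lattice series is summable. -/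
theorem RowKernel.summable (u : ℂ) : Summable fun n : ℤ => 1 / (u + n) ^ (k + 1) := by
  refine ((EisensteinSeries.linear_right_summable u 1 (k := (k + 1 : ℕ))
    (by have := hF.pos; omega))).congr fun n => ?_
  simp only [one_div, Int.cast_one, one_mul, zpow_natCast]

theorem RowKernel.tsum_of_pos {u : ℂ} (hu : 0 < u.im) :
    ∑' n : ℤ, 1 / (u + n) ^ (k + 1) =
      (-2 * (π : ℂ) * Complex.I) ^ (k + 1) / k.factorial * F (cexp (2 * π * Complex.I * u)) := by
  have h := EisensteinSeries.qExpansion_identity hF.pos ⟨u, hu⟩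
  rw [h, (hF.hasSum ?_).tsum_eq]
  have := UpperHalfPlane.norm_exp_two_pi_I_lt_one ⟨u, hu⟩
  simpa using this

/-- The series identity at every non-integral point. -/
theorem RowKernel.tsum_eq {u : ℂ} (hu : ∀ n : ℤ, u ≠ n) :
    ∑' n : ℤ, 1 / (u + n) ^ (k + 1) =
      (-2 * (π : ℂ) * Complex.I) ^ (k + 1) / k.factorial * F (cexp (2 * π * Complex.I * u)) := by
  rcases lt_trichotomy u.im 0 with hneg | hzero | hpos
  · have h := hF.tsum_of_pos (u := -u) (by simpa using hneg)
    rw [← (Equiv.neg ℤ).tsum_eq, show cexp (2 * π * Complex.I * -u) =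
      (cexp (2 * π * Complex.I * u))⁻¹ by rw [← Complex.exp_neg]; ring_nf, hF.inv] at h
    have hs : ((-1 : ℂ) ^ (k + 1)) * (-1) ^ (k + 1) = 1 := by rw [← mul_pow]; norm_num
    have e : ∀ n : ℤ, 1 / (-u + ((Equiv.neg ℤ n : ℤ) : ℂ)) ^ (k + 1) =
        (-1) ^ (k + 1) * (1 / (u + n) ^ (k + 1)) := fun n => by
      rw [show -u + ((Equiv.neg ℤ n : ℤ) : ℂ) = (-1) * (u + n) by simp; ring, mul_pow, one_div,
        one_div, mul_inv, inv_eq_of_mul_eq_one_left hs]
    rw [tsum_congr e, tsum_mul_left] at h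
    have := congrArg (((-1 : ℂ) ^ (k + 1)) * ·) h
    simp only [← mul_assoc, hs, one_mul] at this
    linear_combination this + ((-2 * (π : ℂ) * Complex.I) ^ (k + 1) / k.factorial *
      F (cexp (2 * π * Complex.I * u))) * hs
  · have hne : ∀ n : ℤ, u + n ≠ 0 := fun n h =>
      hu (-n) (by push_cast; linear_combination h)
    have hQ : cexp (2 * π * Complex.I * u) ≠ 1 := by
      intro h
      obtain ⟨n, hn⟩ := Complex.exp_eq_one_iff.mp h
      exact hu n (mul_left_cancel₀ Complex.two_pi_I_ne_zero (by linear_combination hn))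
    have hlim1 : Tendsto (fun y : ℝ => ∑' n : ℤ, 1 / (u + y * Complex.I + n) ^ (k + 1)) (𝓝[>] 0)
        (𝓝 (∑' n : ℤ, 1 / (u + n) ^ (k + 1))) := by
      refine tendsto_tsum_of_dominated_convergence
        (bound := fun n : ℤ => ‖1 / (u + n) ^ (k + 1)‖) (hF.summable u).norm ?_ ?_
      · intro n
        refine Tendsto.mono_left ?_ nhdsWithin_le_nhds
        have : ContinuousAt (fun y : ℝ => 1 / (u + y * Complex.I + n) ^ (k + 1)) 0 := by
          refine continuousAt_const.div (by fun_prop) ?_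
          simpa using hne n
        simpa using this.tendsto
      · filter_upwards [self_mem_nhdsWithin] with y hy n
        simp only [norm_div, norm_one, norm_pow]
        gcongr
        · exact pow_pos (norm_pos_iff.mpr (hne n)) _
        · rw [Complex.norm_def, Complex.norm_def]
          refine Real.sqrt_le_sqrt ?_
          simp [Complex.normSq_apply, hzero]
          exact mul_self_nonneg y
    have hlim2 : Tendsto (fun y : ℝ => (-2 * (π : ℂ) * Complex.I) ^ (k + 1) / k.factorial *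
        F (cexp (2 * π * Complex.I * (u + y * Complex.I)))) (𝓝[>] 0)
        (𝓝 ((-2 * (π : ℂ) * Complex.I) ^ (k + 1) / k.factorial *
          F (cexp (2 * π * Complex.I * u)))) := by
      refine Tendsto.mono_left ?_ nhdsWithin_le_nhds
      have : ContinuousAt (fun y : ℝ => (-2 * (π : ℂ) * Complex.I) ^ (k + 1) / k.factorial *
          F (cexp (2 * π * Complex.I * (u + y * Complex.I)))) 0 :=
        continuousAt_const.mul ((hF.cont hQ).comp_of_eq (by fun_prop) (by simp))
      simpa using this.tendsto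
    refine tendsto_nhds_unique hlim1 (hlim2.congr' ?_)
    filter_upwards [self_mem_nhdsWithin] with y hy
    exact (hF.tsum_of_pos (by simpa [hzero] using hy)).symm
  · exact hF.tsum_of_pos hpos

end

/-- `Q / (1 - Q)²` is a row kernel for `k = 1`. -/
theorem rowKernel_kFun : RowKernel 1 kFun where
  pos := le_rfl
  hasSum h := by simpa using hasSum_kFun h
  inv Q := by rw [kFun_inv]; norm_num
  cont hQ := ContinuousAt.div (by fun_prop) (by fun_prop) (by simp [sub_eq_zero, Ne.symm hQ])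

/-- The exponential parameter `e^{2πiτ/M}`. -/
noncomputable def qm (M : ℕ) (τ : ℍ) : ℂ := Function.Periodic.qParam (M : ℝ) τ

/-- The definition of `q ^ (1/M)`. -/
theorem qm_eq (M : ℕ) (τ : ℍ) : qm M τ = cexp (2 * π * Complex.I * τ / M) := by
  simp [qm, Function.Periodic.qParam]

/-- `q ^ (1/M)` is nonzero. -/
theorem qm_ne_zero (M : ℕ) (τ : ℍ) : qm M τ ≠ 0 := Complex.exp_ne_zero _

/-- `|q ^ (1/M)| < 1` on the half plane. -/
theorem norm_qm_lt_one (M : ℕ) [NeZero M] (τ : ℍ) : ‖qm M τ‖ < 1 :=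
  Function.Periodic.norm_qParam_lt_one (by simp [Nat.pos_of_ne_zero (NeZero.ne M)]) τ.im_pos

/-- `e^{2πi/M}`. -/
noncomputable def zetaC (M : ℕ) : ℂ := cexp (2 * π * Complex.I / M)

/-- `e^{2πi/M}` is a primitive `M`-th root of unity. -/
theorem zetaC_isPrimitiveRoot (M : ℕ) [NeZero M] : IsPrimitiveRoot (zetaC M) M :=
  Complex.isPrimitiveRoot_exp M (NeZero.ne M)

variable (M : ℕ) [NeZero M]

/-- One row of the lattice series at a division point. -/
theorem RowKernel.hasSum_row (hF : RowKernel k F) {u : Fin 2 → ℤ}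
    (hu : ¬ ∀ i, (u i : ZMod M) = 0) (τ : ℍ) (m : ℤ) :
    HasSum (fun n : ℤ => 1 / (zPt M u τ - (m * τ + n)) ^ (k + 1))
      ((-2 * (π : ℂ) * Complex.I) ^ (k + 1) / k.factorial *
        F (zetaC M ^ (u 1) * qm M τ ^ (u 0 - m * M))) := by
  have hnot : ∀ n : ℤ, zPt M u τ - m * τ ≠ n := fun n h =>
    hu ((zPt_mem_lattice_iff M u τ).mp (mem_perPair_lattice.mpr ⟨m, n, by linear_combination -h⟩))
  have hsum := (hF.summable (zPt M u τ - m * τ)).hasSum
  rw [hF.tsum_eq hnot] at hsum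
  have hM : (M : ℂ) ≠ 0 := by simp [NeZero.ne M]
  have e : cexp (2 * π * Complex.I * (zPt M u τ - m * τ)) =
      zetaC M ^ (u 1) * qm M τ ^ (u 0 - m * M) := by
    rw [zetaC, qm_eq, ← Complex.exp_int_mul, ← Complex.exp_int_mul, ← Complex.exp_add]
    congr 1
    simp only [zPt]
    push_cast
    field_simp
    ring
  rw [e] at hsum
  refine ((Equiv.neg ℤ).hasSum_iff.mpr hsum).congr_fun fun n => ?_
  simp only [Function.comp_apply, Equiv.neg_apply]
  push_cast
  ring

end FermatAgent.ES
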