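import Fermat.Agent.ES.Units.Injective
import Mathlib.NumberTheory.ModularForms.SlashActions
import Mathlib.NumberTheory.ModularForms.CongruenceSubgroups
import Mathlib.LinearAlgebra.Complex.Module

/-!
# Differences of division values of `℘`

`dif M v w τ = (2πi)⁻² (℘_τ(z_v) - ℘_τ(z_w))` for `v, w ∈ (ℤ/M)²`, where
`z_v = (v₀ τ + v₁)/M` and `℘_τ` belongs to the lattice `ℤ τ + ℤ`. For `v ≠ ±w` nonzero it has no
zero on `ℍ`, and it is modular of weight two up to the action of `SL(2, ℤ)` on `(ℤ/M)²`.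
-/

set_option autoImplicit false

open Filter Topology UpperHalfPlane Complex
open scoped PeriodPair MatrixGroups ModularForm Real

namespace FermatAgent.ES

/-- `τ` and `1` are independent over `ℝ`. -/
theorem indep_coe_one (τ : ℍ) : LinearIndependent ℝ ![(τ : ℂ), 1] := by
  rw [LinearIndependent.pair_iff]
  intro s t h
  have him := congrArg Complex.im h
  simp at him
  rcases him with h1 | h1
  · subst h1
    simpa using h
  · exact absurd h1 τ.im_ne_zero

/-- The lattice `ℤ τ + ℤ`. -/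
noncomputable def perPair (τ : ℍ) : PeriodPair where
  ω₁ := τ
  ω₂ := 1
  indep := indep_coe_one τ

@[simp] theorem perPair_omega1 (τ : ℍ) : (perPair τ).ω₁ = τ := rfl
@[simp] theorem perPair_omega2 (τ : ℍ) : (perPair τ).ω₂ = 1 := rfl

/-- The point `(a τ + b)/M`. -/
noncomputable def zPt (M : ℕ) (v : Fin 2 → ℤ) (τ : ℍ) : ℂ :=
  ((v 0 : ℂ) * τ + (v 1 : ℂ)) / M

/-- Membership in the lattice `ℤ τ + ℤ`. -/
theorem mem_perPair_lattice {τ : ℍ} {x : ℂ} :
    x ∈ (perPair τ).lattice ↔ ∃ m n : ℤ, (m : ℂ) * τ + n = x := by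
  simp [PeriodPair.mem_lattice]

variable (M : ℕ) [NeZero M]

/-- A division point is in the lattice iff its vector is zero modulo `M`. -/
theorem zPt_mem_lattice_iff (v : Fin 2 → ℤ) (τ : ℍ) :
    zPt M v τ ∈ (perPair τ).lattice ↔ ∀ i, ((v i : ℤ) : ZMod M) = 0 := by
  have hM : (M : ℂ) ≠ 0 := by simp [NeZero.ne M]
  simp only [ZMod.intCast_zmod_eq_zero_iff_dvd, Fin.forall_fin_two]
  rw [mem_perPair_lattice]
  constructor
  · rintro ⟨m, n, h⟩
    simp only [zPt] at h
    rw [eq_div_iff hM] at h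
    have hh := LinearIndependent.pair_iff.mp (indep_coe_one τ)
      ((m * M - v 0 : ℤ) : ℝ) ((n * M - v 1 : ℤ) : ℝ)
      (by simp only [Complex.real_smul]; push_cast; linear_combination h)
    norm_cast at hh
    exact ⟨⟨m, by linarith [hh.1]⟩, ⟨n, by linarith [hh.2]⟩⟩
  · rintro ⟨⟨m, hm⟩, ⟨n, hn⟩⟩
    refine ⟨m, n, ?_⟩
    simp only [zPt, hm, hn]
    push_cast
    field_simp

/-- Integer lift of a vector mod `M`. -/
def liftVec (v : Fin 2 → ZMod M) : Fin 2 → ℤ := fun i => (v i).val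

/-- The lift reduces to the vector. -/
@[simp] theorem cast_liftVec (v : Fin 2 → ZMod M) (i : Fin 2) :
    ((liftVec M v i : ℤ) : ZMod M) = v i := by simp [liftVec]

/-- `(2πi)⁻² (℘(z_v) - ℘(z_w))`. -/
noncomputable def dif (v w : Fin 2 → ZMod M) (τ : ℍ) : ℂ :=
  ((2 * (π : ℂ) * Complex.I) ^ 2)⁻¹ *
    (℘[perPair τ] (zPt M (liftVec M v) τ) - ℘[perPair τ] (zPt M (liftVec M w) τ))

theorem weierstrassP_zPt_congr {v v' : Fin 2 → ℤ} (h : ∀ i, (v i : ZMod M) = v' i) (τ : ℍ) :
    ℘[perPair τ] (zPt M v τ) = ℘[perPair τ] (zPt M v' τ) := by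
  have hmem : zPt M (fun i => v i - v' i) τ ∈ (perPair τ).lattice :=
    (zPt_mem_lattice_iff M _ τ).mpr fun i => by simp [h i]
  have e : zPt M v τ = zPt M v' τ + zPt M (fun i => v i - v' i) τ := by
    simp only [zPt]; push_cast; ring
  rw [e]
  exact (perPair τ).weierstrassP_add_coe _ ⟨_, hmem⟩

/-- The difference computed with any integral lifts. -/
theorem dif_eq_of_lift {v w : Fin 2 → ZMod M} {v' w' : Fin 2 → ℤ}
    (hv : ∀ i, (v' i : ZMod M) = v i) (hw : ∀ i, (w' i : ZMod M) = w i) (τ : ℍ) :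
    dif M v w τ = ((2 * (π : ℂ) * Complex.I) ^ 2)⁻¹ *
      (℘[perPair τ] (zPt M v' τ) - ℘[perPair τ] (zPt M w' τ)) := by
  rw [dif, weierstrassP_zPt_congr M (v := liftVec M v) (v' := v') (fun i => by simp [hv i]),
    weierstrassP_zPt_congr M (v := liftVec M w) (v' := w') (fun i => by simp [hw i])]

/-- The difference is even in the first vector. -/
theorem dif_neg_left (v w : Fin 2 → ZMod M) : dif M (-v) w = dif M v w := by
  funext τ
  rw [dif_eq_of_lift M (v' := -liftVec M v) (w' := liftVec M w) (by simp) (by simp),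
    show zPt M (-liftVec M v) τ = -zPt M (liftVec M v) τ by
      simp only [zPt, Pi.neg_apply]; push_cast; ring,
    PeriodPair.weierstrassP_neg, dif]

omit [NeZero M] in
/-- The difference is antisymmetric. -/
theorem dif_swap (v w : Fin 2 → ZMod M) : dif M w v = -dif M v w := by
  funext τ; simp only [dif, Pi.neg_apply]; ring

/-- The difference is even in the second vector. -/
theorem dif_neg_right (v w : Fin 2 → ZMod M) : dif M v (-w) = dif M v w := by
  rw [dif_swap M (-w) v, dif_neg_left, dif_swap M v w, neg_neg]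

omit [NeZero M] in
/-- Differences chain. -/
theorem dif_add_dif (u v w : Fin 2 → ZMod M) : dif M u v + dif M v w = dif M u w := by
  funext τ; simp only [dif, Pi.add_apply]; ring

/-- The difference vanishes nowhere on `ℍ` when `v, w` are nonzero and `v ≠ ±w`. -/
theorem dif_ne_zero {v w : Fin 2 → ZMod M} (hv : v ≠ 0) (hw : w ≠ 0) (h1 : v ≠ w) (h2 : v ≠ -w)
    (τ : ℍ) : dif M v w τ ≠ 0 := by
  have key : ∀ u : Fin 2 → ℤ, zPt M u τ ∈ (perPair τ).lattice →
      (fun i => (u i : ZMod M)) = 0 := fun u hu => funext ((zPt_mem_lattice_iff M u τ).mp hu)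
  have ha : zPt M (liftVec M v) τ ∉ (perPair τ).lattice := fun h => hv (by simpa using key _ h)
  have hb : zPt M (liftVec M w) τ ∉ (perPair τ).lattice := fun h => hw (by simpa using key _ h)
  refine mul_ne_zero (inv_ne_zero (pow_ne_zero _ (by simp [Real.pi_ne_zero]))) (sub_ne_zero.mpr ?_)
  intro h
  rcases weierstrassP_eq_imp (perPair τ) ha hb h with e | e
  · have e' : zPt M (liftVec M w - liftVec M v) τ ∈ (perPair τ).lattice := by
      convert e using 1; simp only [zPt, Pi.sub_apply]; push_cast; ring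
    exact h1 (funext fun i => (sub_eq_zero.mp (by simpa using congrFun (key _ e') i)).symm)
  · have e' : zPt M (liftVec M w + liftVec M v) τ ∈ (perPair τ).lattice := by
      convert e using 1; simp only [zPt, Pi.add_apply]; push_cast; ring
    exact h2 (funext fun i => eq_neg_of_add_eq_zero_right (by simpa using congrFun (key _ e') i))

/-- The summand of a difference of two values of `℘_τ`. -/
noncomputable def difTerm (z w : ℂ) (τ : ℍ) (p : ℤ × ℤ) : ℂ :=
  1 / (z - (p.1 * τ + p.2)) ^ 2 - 1 / (w - (p.1 * τ + p.2)) ^ 2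

/-- The difference of two values of `℘` as a lattice sum. -/
theorem hasSum_difTerm (z w : ℂ) (τ : ℍ) :
    HasSum (difTerm z w τ) (℘[perPair τ] z - ℘[perPair τ] w) := by
  have h := ((perPair τ).hasSum_weierstrassP z).sub ((perPair τ).hasSum_weierstrassP w)
  refine ((Equiv.hasSum_iff (perPair τ).latticeEquivProd.symm.toEquiv).mpr h).congr_fun fun p => ?_
  simp [difTerm, PeriodPair.latticeEquiv_symm_apply]

/-- Right multiplication by `γ` on `ℤ × ℤ`. -/
def prodMulEquiv (γ : SL(2, ℤ)) : ℤ × ℤ ≃ ℤ × ℤ where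
  toFun p := (p.1 * γ 0 0 + p.2 * γ 1 0, p.1 * γ 0 1 + p.2 * γ 1 1)
  invFun p := (p.1 * γ 1 1 - p.2 * γ 1 0, -p.1 * γ 0 1 + p.2 * γ 0 0)
  left_inv p := by
    have h := Matrix.SpecialLinearGroup.det_coe γ
    rw [Matrix.det_fin_two] at h
    ext <;> simp only <;> [linear_combination p.1 * h; linear_combination p.2 * h]
  right_inv p := by
    have h := Matrix.SpecialLinearGroup.det_coe γ
    rw [Matrix.det_fin_two] at h
    ext <;> simp only <;> [linear_combination p.1 * h; linear_combination p.2 * h]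

/-- The image of `γ` mod `M`. -/
def modMat (γ : SL(2, ℤ)) : Matrix (Fin 2) (Fin 2) (ZMod M) :=
  (γ.1).map (Int.castRingHom (ZMod M))

omit [NeZero M] in
/-- `1` reduces to the identity. -/
theorem modMat_one : modMat M 1 = 1 := by simp [modMat]

omit [NeZero M] in
/-- Reduction is multiplicative. -/
theorem modMat_mul (γ δ : SL(2, ℤ)) : modMat M (γ * δ) = modMat M γ * modMat M δ := by
  simp only [modMat, Matrix.SpecialLinearGroup.coe_mul]
  exact Matrix.map_mul

/-- An integral row vector times `γ`. -/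
def mulInt (γ : SL(2, ℤ)) (u : Fin 2 → ℤ) : Fin 2 → ℤ :=
  ![u 0 * γ 0 0 + u 1 * γ 1 0, u 0 * γ 0 1 + u 1 * γ 1 1]

/-- The image of a lift reduces to the image of the vector. -/
theorem cast_mulInt_liftVec (γ : SL(2, ℤ)) (u : Fin 2 → ZMod M) (i : Fin 2) :
    ((mulInt γ (liftVec M u) i : ℤ) : ZMod M) = Matrix.vecMul u (modMat M γ) i := by
  fin_cases i <;> simp [mulInt, Matrix.vecMul, dotProduct, Fin.sum_univ_two, modMat, liftVec]

omit [NeZero M] in
/-- The differences from the lattice points transform with the factor of automorphy. -/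
theorem zPt_mulInt_sub (γ : SL(2, ℤ)) (τ : ℍ) (u : Fin 2 → ℤ) (p : ℤ × ℤ) :
    zPt M (mulInt γ u) τ - (((prodMulEquiv γ p).1 : ℂ) * τ + (prodMulEquiv γ p).2) =
      (zPt M u (γ • τ) - ((p.1 : ℂ) * (γ • τ : ℍ) + p.2)) * ((γ 1 0 : ℂ) * τ + γ 1 1) := by
  have hJ : ((γ 1 0 : ℂ) * τ + γ 1 1) ≠ 0 := by
    have := UpperHalfPlane.denom_ne_zero (Matrix.SpecialLinearGroup.mapGL ℝ γ) τ
    simpa [UpperHalfPlane.denom] using this
  set J : ℂ := (γ 1 0 : ℂ) * τ + γ 1 1 with hJdef
  have hcoe : ((γ • τ : ℍ) : ℂ) = ((γ 0 0 : ℂ) * τ + γ 0 1) / J := by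
    rw [UpperHalfPlane.coe_specialLinearGroup_apply]
    simp [hJdef]
  simp only [zPt, mulInt, prodMulEquiv, Equiv.coe_fn_mk, hcoe, Matrix.cons_val_zero,
    Matrix.cons_val_one]
  push_cast
  field_simp
  rw [hJdef]
  ring

/-- `dif M v w` transforms under `γ` of weight two into `dif M (v γ) (w γ)`. -/
theorem dif_slash (v w : Fin 2 → ZMod M) (γ : SL(2, ℤ)) :
    dif M v w ∣[(2 : ℤ)] γ =
      dif M (Matrix.vecMul v (modMat M γ)) (Matrix.vecMul w (modMat M γ)) := by
  funext τ
  rw [dif_eq_of_lift M (cast_mulInt_liftVec M γ v) (cast_mulInt_liftVec M γ w),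
    ModularForm.SL_slash_apply]
  have hden : UpperHalfPlane.denom (Matrix.SpecialLinearGroup.mapGL ℝ γ) τ =
      (γ 1 0 : ℂ) * τ + γ 1 1 := by
    simp [UpperHalfPlane.denom]
  rw [show UpperHalfPlane.denom γ τ = _ from hden, dif, mul_assoc]
  congr 1
  set J : ℂ := (γ 1 0 : ℂ) * τ + γ 1 1
  have h1 := (hasSum_difTerm (zPt M (liftVec M v) (γ • τ)) (zPt M (liftVec M w) (γ • τ))
    (γ • τ)).mul_right (J ^ (-2 : ℤ))
  have h2 := hasSum_difTerm (zPt M (mulInt γ (liftVec M v)) τ) (zPt M (mulInt γ (liftVec M w)) τ) τ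
  refine h1.unique (((prodMulEquiv γ).hasSum_iff.mpr h2).congr_fun fun p => ?_)
  simp only [Function.comp_apply, difTerm, zPt_mulInt_sub, zpow_neg]
  have : J ^ (2 : ℤ) = J ^ 2 := by norm_cast
  rw [this]
  simp only [mul_pow, one_div, mul_inv]
  ring

end FermatAgent.ES
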