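import Mathlib.Analysis.SpecialFunctions.Elliptic.Weierstrass
import Mathlib.Analysis.Normed.Module.Connected
import Mathlib.Analysis.Calculus.IteratedDeriv.Lemmas
import Mathlib.Analysis.Analytic.IsolatedZeros

/-!
# Injectivity of the Weierstrass function up to sign

`℘(a) = ℘(b)` forces `a ≡ ±b` modulo the lattice.  The proof uses uniqueness for the
differential equation `℘'' = 6℘² - g₂/2` instead of counting zeros.
-/

set_option autoImplicit false

open Filter Topology
open scoped PeriodPair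

namespace FermatAgent.ES

variable (L : PeriodPair)

/-- A lattice is countable. -/
theorem countable_lattice : (L.lattice : Set ℂ).Countable := by
  have h : Countable L.lattice := L.latticeEquivProd.toEquiv.injective.countable
  exact Set.countable_coe_iff.mp h

/-- The complement of a lattice is connected. -/
theorem isConnected_compl_lattice : IsConnected (L.lattice : Set ℂ)ᶜ :=
  (countable_lattice L).isConnected_compl_of_one_lt_rank (by simp)

theorem tendsto_weierstrassP_cobounded (l : ℂ) (hl : l ∈ L.lattice) :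
    Tendsto ℘[L] (𝓝[≠] l) (Bornology.cobounded ℂ) :=
  tendsto_cobounded_of_meromorphicOrderAt_neg (by rw [L.order_weierstrassP l hl]; decide)

theorem not_eventually_eq_continuous (l : ℂ) (hl : l ∈ L.lattice) {f : ℂ → ℂ}
    (hf : ContinuousAt f l) : ¬ (∀ᶠ z in 𝓝[≠] l, ℘[L] z = f z) := by
  intro h
  have h1 : Tendsto f (𝓝[≠] l) (Bornology.cobounded ℂ) :=
    (tendsto_weierstrassP_cobounded L l hl).congr' h
  have h2 : Tendsto f (𝓝[≠] l) (𝓝 (f l)) := hf.tendsto.mono_left nhdsWithin_le_nhds
  have h3 := tendsto_norm_atTop_iff_cobounded.mpr h1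
  exact not_tendsto_atTop_of_tendsto_nhds h2.norm h3

/-- `℘'` is not identically zero. -/
theorem derivWeierstrassP_not_identically_zero :
    ¬ Set.EqOn ℘'[L] 0 (L.lattice : Set ℂ)ᶜ := by
  intro h
  have hU : IsOpen (L.lattice : Set ℂ)ᶜ := L.isClosed_lattice.isOpen_compl
  obtain ⟨c, hc⟩ : ∃ c, ∀ x ∈ (L.lattice : Set ℂ)ᶜ, ℘[L] x = c :=
    hU.exists_is_const_of_deriv_eq_zero (isConnected_compl_lattice L).isPreconnected
      L.differentiableOn_weierstrassP (by rw [L.deriv_weierstrassP]; exact h)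
  refine not_eventually_eq_continuous L 0 L.lattice.zero_mem (f := fun _ => c) continuousAt_const ?_
  filter_upwards [self_mem_nhdsWithin,
    mem_nhdsWithin_of_mem_nhds (L.compl_lattice_sdiff_singleton_mem_nhds 0)] with z hz hz'
  exact hc z (by simp_all)

/-- The differential equation `℘'' = 6 ℘² - g₂/2` off the lattice. -/
theorem deriv_derivWeierstrassP_eq {z : ℂ} (hz : z ∉ L.lattice) :
    deriv ℘'[L] z = 6 * ℘[L] z ^ 2 - L.g₂ / 2 := by
  set U : Set ℂ := (L.lattice : Set ℂ)ᶜ with hUdef
  have hU : IsOpen U := L.isClosed_lattice.isOpen_compl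
  have hP : AnalyticOnNhd ℂ ℘[L] U := L.analyticOnNhd_weierstrassP
  have hP' : AnalyticOnNhd ℂ ℘'[L] U := L.analyticOnNhd_derivWeierstrassP
  set h : ℂ → ℂ := fun w => deriv ℘'[L] w - (6 * ℘[L] w ^ 2 - L.g₂ / 2) with hh
  have hha : AnalyticOnNhd ℂ h U :=
    hP'.deriv.sub (fun w hw => by have := hP w hw; fun_prop)
  have key : ∀ w ∈ U, h w * ℘'[L] w = 0 := by
    intro w hw
    have e : (fun u => ℘'[L] u ^ 2) =ᶠ[𝓝 w]
        (fun u => 4 * ℘[L] u ^ 3 - L.g₂ * ℘[L] u - L.g₃) := by
      filter_upwards [hU.mem_nhds hw] with u hu using L.derivWeierstrassP_sq u hu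
    have d1 : HasDerivAt (fun u => ℘'[L] u ^ 2) (2 * ℘'[L] w * deriv ℘'[L] w) w := by
      simpa using ((hP' w hw).differentiableAt.hasDerivAt.fun_pow 2)
    have dP : HasDerivAt ℘[L] (℘'[L] w) w := by
      have := (hP w hw).differentiableAt.hasDerivAt
      rwa [L.deriv_weierstrassP] at this
    have d2 : HasDerivAt (fun u => 4 * ℘[L] u ^ 3 - L.g₂ * ℘[L] u - L.g₃)
        (4 * (3 * ℘[L] w ^ 2 * ℘'[L] w) - L.g₂ * ℘'[L] w) w := by
      simpa using (((dP.fun_pow 3).const_mul 4).sub (dP.const_mul L.g₂)).sub_const L.g₃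
    have := d1.unique (d2.congr_of_eventuallyEq e)
    simp only [hh]
    linear_combination this / 2
  rcases AnalyticOnNhd.eq_zero_or_eq_zero_of_mul_eq_zero hha hP' key
      (isConnected_compl_lattice L).isPreconnected with h0 | h0
  · exact sub_eq_zero.mp (h0 z hz)
  · exact absurd h0 (derivWeierstrassP_not_identically_zero L)

/-- If `℘` and `℘'` agree at `a` and `b`, so do all derivatives of `℘`. -/
theorem iteratedDeriv_weierstrassP_eq {a b : ℂ} (ha : a ∉ L.lattice) (hb : b ∉ L.lattice)
    (h0 : ℘[L] a = ℘[L] b) (h1 : ℘'[L] a = ℘'[L] b) :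
    ∀ i : ℕ, iteratedDeriv i ℘[L] a = iteratedDeriv i ℘[L] b := by
  intro i
  induction i using Nat.strong_induction_on with
  | _ i ih =>
    rcases i with _ | _ | i
    · simpa using h0
    · simpa using h1
    · have key : ∀ c : ℂ, c ∉ L.lattice → iteratedDeriv (i + 2) ℘[L] c =
          6 * (∑ j ∈ Finset.range (i + 1), (i.choose j : ℂ) * iteratedDeriv j ℘[L] c *
              iteratedDeriv (i - j) ℘[L] c) - (if i = 0 then L.g₂ / 2 else 0) := by
        intro c hc
        have hcd : ContDiffAt ℂ i ℘[L] c := (L.analyticOnNhd_weierstrassP c hc).contDiffAt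
        have e : deriv (deriv ℘[L]) =ᶠ[𝓝 c]
            (fun u => 6 * (℘[L] u * ℘[L] u) - L.g₂ / 2) := by
          rw [L.deriv_weierstrassP]
          filter_upwards [L.isClosed_lattice.isOpen_compl.mem_nhds hc] with u hu
          rw [deriv_derivWeierstrassP_eq L hu]; ring
        rw [iteratedDeriv_succ', iteratedDeriv_succ', e.iteratedDeriv_eq,
          iteratedDeriv_fun_sub (by fun_prop) contDiffAt_const, iteratedDeriv_const,
          iteratedDeriv_const_mul_field, iteratedDeriv_fun_mul hcd hcd]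
      rw [key a ha, key b hb]
      congr 1
      congr 1
      refine Finset.sum_congr rfl fun j hj => ?_
      rw [ih j (by have := Finset.mem_range.mp hj; omega), ih (i - j) (by omega)]

/-- If `℘` and `℘'` agree at `a` and `b`, then `℘ (z + (b - a)) = ℘ z` by the identity theorem, so
`b - a` lies in the lattice. -/
theorem sub_mem_lattice_of_weierstrassP_eq {a b : ℂ} (ha : a ∉ L.lattice) (hb : b ∉ L.lattice)
    (h0 : ℘[L] a = ℘[L] b) (h1 : ℘'[L] a = ℘'[L] b) : b - a ∈ L.lattice := by
  by_contra hd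
  set d := b - a with hdd
  set s : Set ℂ := (L.lattice : Set ℂ) ∪ (fun x => x - d) '' (L.lattice : Set ℂ) with hs
  set g : ℂ → ℂ := fun z => ℘[L] (z + d) - ℘[L] z with hg
  have hsc : s.Countable := (countable_lattice L).union ((countable_lattice L).image _)
  have hU : IsConnected sᶜ := hsc.isConnected_compl_of_one_lt_rank (by simp)
  have hmem : ∀ {z : ℂ}, z ∈ sᶜ ↔ z ∉ L.lattice ∧ z + d ∉ L.lattice := by
    intro z
    simp only [hs, Set.mem_compl_iff, Set.mem_union, SetLike.mem_coe, Set.mem_image, not_or]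
    refine and_congr_right fun _ => ⟨fun h hz => h ⟨z + d, hz, by ring⟩, ?_⟩
    rintro h ⟨x, hx, rfl⟩
    exact h (by simpa using hx)
  have hga : AnalyticOnNhd ℂ g sᶜ := by
    intro z hz
    obtain ⟨h1, h2⟩ := hmem.mp hz
    exact ((L.analyticOnNhd_weierstrassP _ h2).comp (f := (· + d)) (by fun_prop)).sub
      (L.analyticOnNhd_weierstrassP _ h1)
  have hab : a + d = b := by rw [hdd]; ring
  have hamem : a ∈ sᶜ := hmem.mpr ⟨ha, hab.symm ▸ hb⟩
  have hz : g =ᶠ[𝓝 a] 0 := by
    have hi : ∀ i, iteratedDeriv i g a = 0 := by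
      intro i
      have c1 : ContDiffAt ℂ i (fun z => ℘[L] (z + d)) a :=
        ((L.analyticOnNhd_weierstrassP _ (hmem.mp hamem).2).comp (f := (· + d))
          (by fun_prop)).contDiffAt
      have c2 : ContDiffAt ℂ i ℘[L] a := (L.analyticOnNhd_weierstrassP a ha).contDiffAt
      rw [hg, iteratedDeriv_fun_sub c1 c2, iteratedDeriv_comp_add_const]
      simp only [hab]
      rw [iteratedDeriv_weierstrassP_eq L ha hb h0 h1 i, sub_self]
    have : analyticOrderAt g a = ⊤ := by
      rw [ENat.eq_top_iff_forall_ge]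
      intro n
      exact (natCast_le_analyticOrderAt_iff_iteratedDeriv_eq_zero (hga a hamem)).mpr
        fun i _ => hi i
    exact analyticOrderAt_eq_top.mp this
  have hzero : Set.EqOn g 0 sᶜ :=
    hga.eqOn_zero_of_preconnected_of_eventuallyEq_zero hU.isPreconnected hamem hz
  refine not_eventually_eq_continuous L 0 L.lattice.zero_mem (f := fun z => ℘[L] (z + d)) ?_ ?_
  · exact ((L.analyticOnNhd_weierstrassP d hd).continuousAt).comp_of_eq (by fun_prop) (zero_add d)
  · have hd' : ∀ᶠ z in 𝓝[≠] (0 : ℂ), z + d ∉ L.lattice := by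
      refine nhdsWithin_le_nhds ?_
      exact (continuous_add_const d).continuousAt.preimage_mem_nhds
        (L.isClosed_lattice.isOpen_compl.mem_nhds (by simpa using hd))
    filter_upwards [self_mem_nhdsWithin,
      mem_nhdsWithin_of_mem_nhds (L.compl_lattice_sdiff_singleton_mem_nhds 0), hd'] with z h1 h2 h3
    have := hzero (hmem.mpr ⟨by simp_all, h3⟩)
    simp only [hg, Pi.zero_apply, sub_eq_zero] at this
    exact this.symm

/-- `℘ a = ℘ b` iff `a ≡ ±b`. -/
theorem weierstrassP_eq_imp {a b : ℂ} (ha : a ∉ L.lattice) (hb : b ∉ L.lattice)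
    (h : ℘[L] a = ℘[L] b) : b - a ∈ L.lattice ∨ b + a ∈ L.lattice := by
  have hsq : ℘'[L] a ^ 2 = ℘'[L] b ^ 2 := by
    rw [L.derivWeierstrassP_sq a ha, L.derivWeierstrassP_sq b hb, h]
  rcases eq_or_eq_neg_of_sq_eq_sq _ _ hsq with e | e
  · exact Or.inl (sub_mem_lattice_of_weierstrassP_eq L ha hb h e)
  · right
    have hb' : -b ∉ L.lattice := fun h' => hb (by simpa using neg_mem h')
    have h2 := sub_mem_lattice_of_weierstrassP_eq L ha hb' (by simpa using h)
      (by rw [L.derivWeierstrassP_neg]; exact e)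
    simpa [add_comm] using neg_mem h2

end FermatAgent.ES
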