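import Fermat.Agent.ES.Units.QSeries
import Mathlib.RingTheory.RootsOfUnity.PrimitiveRoots
import Mathlib.Data.ZMod.ValMinAbs

/-!
# The leading coefficient of `difSeries` is a unit

Over a subring `A` in which `1 - ζ^i` (`M ∤ i`) are units, the series `difSeries M ζ v w` is
`X^d` times a power series over `A` with unit constant term.
-/

set_option autoImplicit false

namespace FermatAgent.ES

variable {K : Type*} [Field K]

/-- `x` is a unit of the subring `A`. -/
def UnitIn (A : Subring K) (x : K) : Prop := x ≠ 0 ∧ x ∈ A ∧ x⁻¹ ∈ A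

namespace UnitIn

variable {A : Subring K} {x y : K}

/-- One is a unit. -/
theorem one : UnitIn A (1 : K) := ⟨one_ne_zero, A.one_mem, by simp⟩

/-- Units multiply. -/
theorem mul (hx : UnitIn A x) (hy : UnitIn A y) : UnitIn A (x * y) :=
  ⟨mul_ne_zero hx.1 hy.1, A.mul_mem hx.2.1 hy.2.1, by
    rw [mul_inv]; exact A.mul_mem hx.2.2 hy.2.2⟩

/-- Units invert. -/
theorem inv (hx : UnitIn A x) : UnitIn A x⁻¹ :=
  ⟨inv_ne_zero hx.1, hx.2.2, by rw [inv_inv]; exact hx.2.1⟩

/-- Units divide. -/
theorem div (hx : UnitIn A x) (hy : UnitIn A y) : UnitIn A (x / y) := by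
  rw [div_eq_mul_inv]; exact hx.mul hy.inv

/-- Negatives of units are units. -/
theorem neg (hx : UnitIn A x) : UnitIn A (-x) :=
  ⟨neg_ne_zero.mpr hx.1, A.neg_mem hx.2.1, by rw [inv_neg]; exact A.neg_mem hx.2.2⟩

/-- Powers of units are units. -/
theorem pow (hx : UnitIn A x) (n : ℕ) : UnitIn A (x ^ n) := by
  induction n with
  | zero => simpa using one
  | succ n ih => rw [pow_succ]; exact ih.mul hx

end UnitIn

/-- `ζ` is a primitive `M`-th root of unity of `A` all whose `1 - ζ^i ≠ 0` are units of `A`. -/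
structure GoodRoot (M : ℕ) (A : Subring K) (ζ : K) : Prop where
  prim : IsPrimitiveRoot ζ M
  mem : ζ ∈ A
  unit_one_sub : ∀ i : ℕ, ¬ M ∣ i → UnitIn A (1 - ζ ^ i)

variable {M : ℕ} [NeZero M] {A : Subring K} {ζ : K}

/-- A good root is a unit. -/
theorem GoodRoot.unit_root (h : GoodRoot M A ζ) : UnitIn A ζ := by
  refine ⟨h.prim.ne_zero (NeZero.ne M), h.mem, ?_⟩
  have : ζ⁻¹ = ζ ^ (M - 1) := by
    refine inv_eq_of_mul_eq_one_right ?_
    rw [← pow_succ', Nat.sub_add_cancel (NeZero.one_le), h.prim.pow_eq_one]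
  rw [this]; exact A.pow_mem h.mem _

theorem GoodRoot.unit_zpow_sub (h : GoodRoot M A ζ) {a b : ZMod M} (hab : a ≠ b) :
    UnitIn A (ζ ^ a.val - ζ ^ b.val) := by
  have hne : ¬ M ∣ a.val + (M - b.val) := by
    intro hd
    apply hab
    have hb : b.val ≤ M := b.val_lt.le
    have h2 := (ZMod.natCast_eq_zero_iff _ _).mpr hd |>.symm.symm
    simp only [Nat.cast_add, Nat.cast_sub hb, ZMod.natCast_self, ZMod.natCast_val,
      ZMod.cast_id', id_eq, zero_sub, ← sub_eq_add_neg, sub_eq_zero] at h2
    exact h2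
  have e : ζ ^ a.val - ζ ^ b.val = -(ζ ^ b.val * (1 - ζ ^ (a.val + (M - b.val)))) := by
    rw [mul_sub, mul_one, ← pow_add, show b.val + (a.val + (M - b.val)) = a.val + M by
      have := b.val_lt; omega, pow_add, h.prim.pow_eq_one, mul_one]
    ring
  rw [e]
  exact ((h.unit_root.pow _).mul (h.unit_one_sub _ hne)).neg

theorem pow_neg_val (hζ : ζ ^ M = 1) (a : ZMod M) (r : ℕ) :
    ζ ^ ((-a).val * r) = (ζ ^ (a.val * r))⁻¹ := by
  refine (inv_eq_of_mul_eq_one_right ?_).symm
  have hd : M ∣ a.val + (-a).val := by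
    rw [← ZMod.natCast_eq_zero_iff]
    simp
  obtain ⟨c, hc⟩ := hd
  rw [← pow_add, ← add_mul, hc, mul_assoc, pow_mul, hζ, one_pow]

/-- The coefficients are even in the vector. -/
theorem divCoeff_neg (hζ : ζ ^ M = 1) (v : Fin 2 → ZMod M) (e : ℕ) :
    divCoeff M ζ (-v) e = divCoeff M ζ v e := by
  simp only [divCoeff, Pi.neg_apply, neg_neg, neg_eq_zero]
  split_ifs with he h0
  · have hne := pow_neg_val (ζ := ζ) hζ (v 1) 1
    simp only [mul_one] at hne
    rw [hne]
    rcases eq_or_ne (ζ ^ (v 1).val) 1 with h1 | h1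
    · simp [h1]
    rcases eq_or_ne (ζ ^ (v 1).val) 0 with h2 | h2
    · simp [h2]
    field_simp
    rw [show (ζ ^ (v 1).val - 1) ^ 2 = (1 - ζ ^ (v 1).val) ^ 2 by ring]
  · rfl
  · exact Finset.sum_congr rfl fun r _ => by ring

/-- The leading exponent attached to `v`. -/
def leadIdx (v : Fin 2 → ZMod M) : ℕ := (v 0).valMinAbs.natAbs

omit [NeZero M] in
theorem leadIdx_neg (v : Fin 2 → ZMod M) : leadIdx (-v) = leadIdx v := by
  simp [leadIdx, ZMod.natAbs_valMinAbs_neg]

/-- The leading exponent is at most `M / 2`. -/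
theorem two_mul_leadIdx_le (v : Fin 2 → ZMod M) : 2 * leadIdx v ≤ M := by
  have := ZMod.natAbs_valMinAbs_le (v 0)
  simp only [leadIdx]; omega

omit [NeZero M] in
/-- The leading exponent is zero iff the first coordinate is. -/
theorem leadIdx_eq_zero {v : Fin 2 → ZMod M} : leadIdx v = 0 ↔ v 0 = 0 := by
  simp [leadIdx, ZMod.valMinAbs_eq_zero]

omit [NeZero M] in
/-- The leading exponent is `± v₀` modulo `M`. -/
theorem natCast_leadIdx (v : Fin 2 → ZMod M) :
    (leadIdx v : ZMod M) = v 0 ∨ (leadIdx v : ZMod M) = -v 0 := by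
  rcases Int.natAbs_eq (v 0).valMinAbs with h | h
  · left
    conv_rhs => rw [← ZMod.coe_valMinAbs (v 0), h]
    simp [leadIdx]
  · right
    conv_rhs => rw [← ZMod.coe_valMinAbs (v 0), h]
    simp [leadIdx]

/-- The leading exponent is at most any natural number congruent to `± v₀`. -/
theorem leadIdx_le_of_natCast {v : Fin 2 → ZMod M} {a : ℕ}
    (h : (a : ZMod M) = v 0 ∨ (a : ZMod M) = -v 0) : leadIdx v ≤ a := by
  have key : ∀ x : ZMod M, (a : ZMod M) = x → x.valMinAbs.natAbs ≤ a := by
    intro x hx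
    rcases le_or_gt (2 * a) M with h2 | h2
    · rw [← hx, ZMod.valMinAbs_natCast_of_le_half (by omega)]; simp
    · have := ZMod.natAbs_valMinAbs_le x
      omega
  rcases h with h | h
  · exact key _ h
  · simpa [leadIdx, ZMod.natAbs_valMinAbs_neg] using key _ h

/-- The coefficients of a nonzero vector lie in the ring of a good root. -/
theorem divCoeff_mem (h : GoodRoot M A ζ) {v : Fin 2 → ZMod M} (hv : v ≠ 0) (e : ℕ) :
    divCoeff M ζ v e ∈ A := by
  simp only [divCoeff]
  split_ifs with he h0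
  · have hv1 : v 1 ≠ 0 := fun h1 => hv (funext fun i => by fin_cases i <;> simp [h0, h1])
    have hd : ¬ M ∣ (v 1).val := fun hd => hv1 (by
      have := (ZMod.natCast_eq_zero_iff (v 1).val M).mpr hd
      simpa using this)
    exact ((h.unit_root.pow _).div ((h.unit_one_sub _ hd).pow 2)).2.1
  · exact A.zero_mem
  · refine sum_mem fun r _ => A.mul_mem (natCast_mem A r) (A.add_mem ?_ ?_) <;> split_ifs <;>
      first | exact A.pow_mem h.mem _ | exact A.zero_mem

theorem divCoeff_eq_zero_of_lt {v : Fin 2 → ZMod M} {e : ℕ} (he : e < leadIdx v) :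
    divCoeff M ζ v e = 0 := by
  simp only [divCoeff]
  split_ifs with h h0
  · exact absurd (leadIdx_eq_zero.mpr h0) (by omega)
  · rfl
  · refine Finset.sum_eq_zero fun r hr => ?_
    have hle : e / r ≤ e := Nat.div_le_self _ _
    rw [if_neg fun hh => by have := leadIdx_le_of_natCast (Or.inl hh); omega,
      if_neg fun hh => by have := leadIdx_le_of_natCast (Or.inr hh); omega]
    simp

theorem divCoeff_leadIdx {v : Fin 2 → ZMod M} (hc : leadIdx v ≠ 0) :
    divCoeff M ζ v (leadIdx v) =
      (if (leadIdx v : ZMod M) = v 0 then ζ ^ (v 1).val else 0) +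
      (if (leadIdx v : ZMod M) = -v 0 then ζ ^ (-v 1).val else 0) := by
  set c := leadIdx v with hcdef
  simp only [divCoeff, if_neg hc]
  rw [Finset.sum_eq_single 1]
  · simp
  · intro r hr hr1
    have hr0 : 0 < r := Nat.pos_of_mem_divisors hr
    have hlt : c / r < c := Nat.div_lt_self (Nat.pos_of_ne_zero hc) (by omega)
    rw [if_neg fun hh => by have := leadIdx_le_of_natCast (Or.inl hh); omega,
      if_neg fun hh => by have := leadIdx_le_of_natCast (Or.inr hh); omega]
    simp
  · simp [Nat.mem_divisors, hc]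

theorem unitIn_lead_of_lt (h : GoodRoot M A ζ) {v : Fin 2 → ZMod M} (hv : v ≠ 0)
    (hlt : 2 * leadIdx v < M) : UnitIn A (divCoeff M ζ v (leadIdx v)) := by
  rcases eq_or_ne (leadIdx v) 0 with h0 | h0
  · have hv0 := leadIdx_eq_zero.mp h0
    have hv1 : v 1 ≠ 0 := fun h1 => hv (funext fun i => by fin_cases i <;> simp [hv0, h1])
    have hd : ¬ M ∣ (v 1).val := fun hd => hv1 (by
      have := (ZMod.natCast_eq_zero_iff (v 1).val M).mpr hd
      simpa using this)
    rw [h0, divCoeff, if_pos rfl, if_pos hv0]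
    exact (h.unit_root.pow _).div ((h.unit_one_sub _ hd).pow 2)
  · rw [divCoeff_leadIdx h0]
    have hex : (v 0 : ZMod M) ≠ -v 0 := by
      intro he
      have h2 : ((2 * leadIdx v : ℕ) : ZMod M) = 0 := by
        rcases natCast_leadIdx v with h' | h' <;> push_cast <;> rw [h']
        · linear_combination he
        · linear_combination -he
      have := Nat.le_of_dvd (by omega) ((ZMod.natCast_eq_zero_iff _ _).mp h2)
      omega
    rcases natCast_leadIdx v with h' | h'
    · rw [if_pos h', if_neg (by rw [h']; exact hex), add_zero]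
      exact h.unit_root.pow _
    · rw [if_neg (by rw [h']; exact hex.symm), if_pos h', zero_add]
      exact h.unit_root.pow _

/-- With equal leading indices the two leading coefficients differ by a unit. -/
theorem unitIn_lead_of_eq (h : GoodRoot M A ζ) {v w : Fin 2 → ZMod M} (hv : v ≠ 0) (hw : w ≠ 0)
    (h1 : v ≠ w) (h2 : v ≠ -w) (heq : leadIdx v = leadIdx w) :
    UnitIn A (divCoeff M ζ v (leadIdx v) - divCoeff M ζ w (leadIdx v)) := by
  -- normalise the signs of the first coordinates
  have hnorm : ∀ u : Fin 2 → ZMod M, ∃ u', (u' = u ∨ u' = -u) ∧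
      (leadIdx u : ZMod M) = u' 0 := fun u => by
    rcases natCast_leadIdx u with h' | h'
    · exact ⟨u, Or.inl rfl, h'⟩
    · exact ⟨-u, Or.inr rfl, by simpa using h'⟩
  obtain ⟨v', hv', hv0⟩ := hnorm v
  obtain ⟨w', hw', hw0⟩ := hnorm w
  have hζ := h.prim.pow_eq_one
  have ev : ∀ e, divCoeff M ζ v e = divCoeff M ζ v' e := by
    intro e; rcases hv' with rfl | rfl <;> simp [divCoeff_neg hζ]
  have ew : ∀ e, divCoeff M ζ w e = divCoeff M ζ w' e := by
    intro e; rcases hw' with rfl | rfl <;> simp [divCoeff_neg hζ]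
  have h00 : v' 0 = w' 0 := by rw [← hv0, ← hw0, heq]
  have hne : v' ≠ w' ∧ v' ≠ -w' := by
    rcases hv' with rfl | rfl <;> rcases hw' with rfl | rfl <;>
      simp [neg_eq_iff_eq_neg, h1, h2]
  have hne1 : v' 1 ≠ w' 1 := fun hh => hne.1 (funext fun i => by
    fin_cases i <;> simp [h00, hh])
  rw [ev, ew]
  by_cases hc : leadIdx v = 0
  · have e0 : v' 0 = 0 := by rw [← hv0, hc, Nat.cast_zero]
    have e0' : w' 0 = 0 := h00 ▸ e0
    have hne2 : v' 1 ≠ -w' 1 := fun hh => hne.2 (funext fun i => by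
      fin_cases i <;> simp [e0, e0', hh])
    have hd : ∀ u : Fin 2 → ZMod M, u 1 ≠ 0 → UnitIn A (1 - ζ ^ (u 1).val) := fun u hu =>
      h.unit_one_sub _ fun hd => hu (by
        have := (ZMod.natCast_eq_zero_iff (u 1).val M).mpr hd
        simpa using this)
    have hv'0 : v' ≠ 0 := by rcases hv' with rfl | rfl <;> simp [hv]
    have hw'0 : w' ≠ 0 := by rcases hw' with rfl | rfl <;> simp [hw]
    have hva : v' 1 ≠ 0 := fun hh => hv'0 (funext fun i => by fin_cases i <;> simp [e0, hh])
    have hwa : w' 1 ≠ 0 := fun hh => hw'0 (funext fun i => by fin_cases i <;> simp [e0', hh])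
    simp only [hc, divCoeff, if_true, e0, e0']
    have hu := ((h.unit_zpow_sub hne1).mul
      (h.unit_one_sub ((v' 1).val + (w' 1).val) fun hd => hne2 (by
        have := (ZMod.natCast_eq_zero_iff _ M).mpr hd
        simp at this
        linear_combination this))).div (((hd v' hva).pow 2).mul ((hd w' hwa).pow 2))
    convert hu using 1
    have e1 := (hd v' hva).1
    have e2 := (hd w' hwa).1
    rw [pow_add]
    field_simp
    ring
  · have hcv : leadIdx v' = leadIdx v := by rcases hv' with rfl | rfl <;> simp [leadIdx_neg]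
    have hcw : leadIdx w' = leadIdx v := by
      rcases hw' with rfl | rfl <;> simp [leadIdx_neg, heq]
    rw [← hcv, divCoeff_leadIdx (by rwa [hcv]), hcv, ← hcw, divCoeff_leadIdx (by rwa [hcw]),
      hcw, ← h00, hv0]
    by_cases hhalf : v' 0 = -v' 0
    · rw [if_pos rfl, if_pos hhalf, if_pos rfl, if_pos hhalf]
      have hne2 : v' 1 ≠ -w' 1 := fun hh => hne.2 (funext fun i => by
        fin_cases i
        · simpa [← h00] using hhalf
        · simpa using hh)
      have e1 := pow_neg_val (ζ := ζ) hζ (v' 1) 1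
      have e2 := pow_neg_val (ζ := ζ) hζ (w' 1) 1
      simp only [mul_one] at e1 e2
      have hu := ((h.unit_zpow_sub hne1).mul
        (h.unit_one_sub ((v' 1).val + (w' 1).val) fun hd => hne2 (by
          have := (ZMod.natCast_eq_zero_iff _ M).mpr hd
          simp at this
          linear_combination this))).div
        (((h.unit_root.pow (v' 1).val).mul (h.unit_root.pow (w' 1).val)).neg)
      convert hu using 1
      have hz0 : ζ ≠ 0 := h.unit_root.1
      rw [e1, e2, pow_add]
      field_simp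
      ring
    · rw [if_pos rfl, if_neg hhalf, if_pos rfl, if_neg hhalf, add_zero, add_zero]
      exact h.unit_zpow_sub hne1

/-- The series `difSeries M ζ v w`, `v ≠ ± w`, has coefficients in `A`, vanishes below the smaller
leading index and has a unit of `A` there. -/
theorem difSeries_lead (h : GoodRoot M A ζ) {v w : Fin 2 → ZMod M} (hv : v ≠ 0) (hw : w ≠ 0)
    (h1 : v ≠ w) (h2 : v ≠ -w) :
    (∀ e, PowerSeries.coeff e (difSeries M ζ v w) ∈ A) ∧
    (∀ e < min (leadIdx v) (leadIdx w), PowerSeries.coeff e (difSeries M ζ v w) = 0) ∧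
    UnitIn A (PowerSeries.coeff (min (leadIdx v) (leadIdx w)) (difSeries M ζ v w)) := by
  refine ⟨fun e => ?_, fun e he => ?_, ?_⟩
  · simpa [difSeries] using A.sub_mem (divCoeff_mem h hv e) (divCoeff_mem h hw e)
  · simp [difSeries, divCoeff_eq_zero_of_lt (show e < leadIdx v by omega),
      divCoeff_eq_zero_of_lt (show e < leadIdx w by omega)]
  · simp only [difSeries, PowerSeries.coeff_mk]
    rcases lt_trichotomy (leadIdx v) (leadIdx w) with hlt | heq | hgt
    · rw [min_eq_left hlt.le, divCoeff_eq_zero_of_lt hlt, sub_zero]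
      exact unitIn_lead_of_lt h hv (by have := two_mul_leadIdx_le w; omega)
    · rw [← heq, min_self]
      exact unitIn_lead_of_eq h hv hw h1 h2 heq
    · rw [min_eq_right hgt.le, divCoeff_eq_zero_of_lt hgt, zero_sub]
      exact (unitIn_lead_of_lt h hw (by have := two_mul_leadIdx_le v; omega)).neg

end FermatAgent.ES
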