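import Fermat.Agent.ES.Ring.Expansion
import Mathlib.NumberTheory.TsumDivisorsAntidiagonal
import Mathlib.NumberTheory.Divisors

/-!
# The expansion of `dif`

`RowKernel.hasSum_rows` sums the rows of a lattice series into a divisor series; so
`dif M v w = Σ (cₑ(v) - cₑ(w)) qm^e`, with `cₑ` the elementary divisor sums `divCoeff`.
-/

set_option autoImplicit false

open Filter Topology UpperHalfPlane Complex
open scoped Real

namespace FermatAgent.ES

/-- Coefficients of the division value series, in any field with a root of unity `ζ`. -/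
def divCoeff {K : Type*} [Field K] (M : ℕ) (ζ : K) (v : Fin 2 → ZMod M) (e : ℕ) : K :=
  if e = 0 then (if v 0 = 0 then ζ ^ (v 1).val / (1 - ζ ^ (v 1).val) ^ 2 else 0)
  else ∑ r ∈ e.divisors, (r : K) *
    ((if ((e / r : ℕ) : ZMod M) = v 0 then ζ ^ ((v 1).val * r) else 0) +
     (if ((e / r : ℕ) : ZMod M) = -v 0 then ζ ^ ((-v 1).val * r) else 0))

/-- The series of the difference of two division values. -/
def difSeries {K : Type*} [Field K] (M : ℕ) (ζ : K) (v w : Fin 2 → ZMod M) : PowerSeries K :=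
  PowerSeries.mk fun e => divCoeff M ζ v e - divCoeff M ζ w e

/-- The coefficients commute with field maps. -/
theorem map_divCoeff {K L : Type*} [Field K] [Field L] (f : K →+* L) (M : ℕ) (ζ : K)
    (v : Fin 2 → ZMod M) (e : ℕ) : f (divCoeff M ζ v e) = divCoeff M (f ζ) v e := by
  simp only [divCoeff, apply_ite f, map_zero, map_sum, map_mul, map_add, map_div₀, map_pow,
    map_sub, map_one, map_natCast]

variable (M : ℕ) [NeZero M]

theorem norm_zetaC : ‖zetaC M‖ = 1 := by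
  exact Complex.norm_eq_one_of_pow_eq_one (zetaC_isPrimitiveRoot M).pow_eq_one (NeZero.ne M)

theorem zetaC_zpow_eq {a : ℤ} {b : ℕ} (h : (a : ZMod M) = (b : ZMod M)) :
    zetaC M ^ a = zetaC M ^ b := by
  obtain ⟨k, hk⟩ := (ZMod.intCast_eq_intCast_iff_dvd_sub a (b : ℤ) M).mp (by simpa using h)
  have h1 : zetaC M ^ (M : ℤ) = 1 := by
    rw [zpow_natCast]; exact (zetaC_isPrimitiveRoot M).pow_eq_one
  have h0 : zetaC M ≠ 0 := Complex.exp_ne_zero _
  have h2 : (b : ℤ) = a + M * k := by linarith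
  rw [← zpow_natCast _ b, h2, zpow_add₀ h0, zpow_mul, h1, one_zpow, mul_one]

variable {k : ℕ} {F : ℂ → ℂ} {v' : Fin 2 → ℤ} {c : ℕ → ℂ}

/-- The series of `F` at `ζᵇ xᵃ`. -/
theorem RowKernel.hasSum_zetaC_mul (hF : RowKernel k F) {x : ℂ} (hx : ‖x‖ < 1) (b : ℕ) (a : ℕ+) :
    HasSum (fun r : ℕ+ => ((r : ℕ) : ℂ) ^ k * zetaC M ^ (b * r) * x ^ ((a : ℕ) * r))
      (F (zetaC M ^ b * x ^ (a : ℕ))) := by
  have hQ : ‖zetaC M ^ b * x ^ (a : ℕ)‖ < 1 := by
    simp only [norm_mul, norm_pow, norm_zetaC, one_pow, one_mul]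
    exact pow_lt_one₀ (norm_nonneg x) hx a.ne_zero
  refine ((PNat.coe_injective.hasSum_iff fun r hr => ?_).mpr (hF.hasSum hQ)).congr_fun fun r => ?_
  · obtain rfl : r = 0 := by_contra fun h0 => hr ⟨⟨r, Nat.pos_of_ne_zero h0⟩, rfl⟩
    simp [zero_pow (Nat.one_le_iff_ne_zero.mp hF.pos)]
  · simp only [Function.comp_apply, mul_pow, ← pow_mul]
    ring

/-- The value at `ζᵇ xᵃ` is bounded by the series of absolute values. -/
theorem RowKernel.norm_zetaC_mul_le (hF : RowKernel k F) {x : ℂ} (hx : ‖x‖ < 1) (a : ℕ+) (b : ℕ) :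
    ‖F (zetaC M ^ b * x ^ (a : ℕ))‖ ≤ ∑' r : ℕ+, ((r : ℕ) : ℝ) ^ k * ‖x‖ ^ ((a : ℕ) * r) := by
  rw [← (hF.hasSum_zetaC_mul M hx b a).tsum_eq]
  have hn : Summable fun r : ℕ+ => ((r : ℕ) : ℝ) ^ k * ‖x‖ ^ ((a : ℕ) * r) :=
    (summable_prod_mul_pow (𝕜 := ℝ) k (r := ‖x‖) (by simpa using hx)).comp_injective
      (i := fun r : ℕ+ => (a, r)) fun r r' h => by simpa using h
  refine (norm_tsum_le_tsum_norm ?_).trans_eq (tsum_congr fun r => ?_)
  · exact hn.congr fun r => by simp [norm_zetaC]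
  · simp [norm_zetaC]

/-- **Summing the rows of the lattice series gives the divisor series**: with `ζ = e^{2πi/M}`,
`x = qm M τ` and `cₑ` the sums over the divisors `r` of `e` attached to `v`, the sum over `m` of
`F (ζ^{v₁} x^{v₀ - m M})` is `∑ cₑ xᵉ`. -/
theorem RowKernel.hasSum_rows (hF : RowKernel k F)
    (hc0 : c 0 = if (v' 0 : ZMod M) = 0 then F (zetaC M ^ (v' 1 : ZMod M).val) else 0)
    (hc : ∀ e : ℕ, e ≠ 0 → c e = ∑ r ∈ e.divisors, (r : ℂ) ^ k *
      ((if ((e / r : ℕ) : ZMod M) = v' 0 then zetaC M ^ ((v' 1 : ZMod M).val * r) else 0) +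
       (-1) ^ (k + 1) *
        (if ((e / r : ℕ) : ZMod M) = -(v' 0 : ZMod M) then
          zetaC M ^ ((-(v' 1 : ZMod M)).val * r) else 0)))
    (τ : ℍ) :
    (Summable fun e : ℕ => c e * qm M τ ^ e) ∧
    HasSum (fun m : ℤ => F (zetaC M ^ (v' 1) * qm M τ ^ (v' 0 - m * M)))
      (∑' e : ℕ, c e * qm M τ ^ e) := by
  classical
  set v : Fin 2 → ZMod M := fun i => (v' i : ZMod M) with hvdef
  set x := qm M τ with hxdef
  set s : ℂ := (-1) ^ (k + 1) with hs
  have hs1 : ‖s‖ = 1 := by simp [hs]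
  have hx : ‖x‖ < 1 := norm_qm_lt_one M τ
  set w : ℕ+ × ℕ+ → ℂ := fun p =>
    (if ((p.1 : ℕ) : ZMod M) = v 0 then zetaC M ^ ((v 1).val * p.2) else 0) +
     s * (if ((p.1 : ℕ) : ZMod M) = -v 0 then zetaC M ^ ((-v 1).val * p.2) else 0) with hw
  set T : ℕ+ × ℕ+ → ℂ := fun p => ((p.2 : ℕ) : ℂ) ^ k * w p * x ^ ((p.1 : ℕ) * p.2) with hT
  have hb0 := summable_prod_mul_pow (𝕜 := ℝ) k (r := ‖x‖) (by simpa using hx)
  have hsum : Summable T := by
    refine Summable.of_norm_bounded (hb0.mul_left 2) fun p => ?_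
    simp only [hT, norm_mul, norm_pow, Complex.norm_natCast]
    have e : ∀ (P : Prop) [Decidable P] (n : ℕ), ‖(if P then zetaC M ^ n else 0)‖ ≤ 1 := by
      intro P _ n; split_ifs <;> simp [norm_zetaC]
    have h : ‖w p‖ ≤ 2 := by
      refine (norm_add_le _ _).trans ?_
      rw [norm_mul, hs1, one_mul]
      linarith [e (((p.1 : ℕ) : ZMod M) = v 0) ((v 1).val * p.2),
        e (((p.1 : ℕ) : ZMod M) = -v 0) ((-v 1).val * p.2)]
    calc _ ≤ ((p.2 : ℕ) : ℝ) ^ k * 2 * ‖x‖ ^ ((p.1 : ℕ) * p.2) := by gcongr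
      _ = _ := by ring
  have hpos : HasSum (fun e : ℕ+ => c e * x ^ (e : ℕ)) (∑' p, T p) := by
    have h := hsum.hasSum
    rw [← sigmaAntidiagonalEquivProd.hasSum_iff] at h
    refine (h.sigma fun n => hasSum_fintype _).congr_fun fun n => ?_
    simp only [Function.comp_apply, sigmaAntidiagonalEquivProd, divisorsAntidiagonalFactors,
      Equiv.coe_fn_mk, hT, hw, PNat.mk_coe]
    refine Eq.trans ?_ ((n : ℕ).divisorsAntidiagonal.sum_coe_sort (fun y : ℕ × ℕ => (y.2 : ℂ) ^ k *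
      ((if ((y.1 : ℕ) : ZMod M) = v 0 then zetaC M ^ ((v 1).val * y.2) else 0) +
       s * (if ((y.1 : ℕ) : ZMod M) = -v 0 then zetaC M ^ ((-v 1).val * y.2) else 0)) *
      x ^ (y.1 * y.2))).symm
    rw [Nat.sum_divisorsAntidiagonal' (fun a b => (b : ℂ) ^ k *
      ((if ((a : ℕ) : ZMod M) = v 0 then zetaC M ^ ((v 1).val * b) else 0) +
       s * (if ((a : ℕ) : ZMod M) = -v 0 then zetaC M ^ ((-v 1).val * b) else 0)) * x ^ (a * b)),
      hc _ n.ne_zero, Finset.sum_mul]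
    refine Finset.sum_congr rfl fun r hr => ?_
    rw [Nat.div_mul_cancel (Nat.dvd_of_mem_divisors hr)]
  have hrow := hF.hasSum_zetaC_mul M hx
  set g : ℤ → ℂ := fun A => if (A : ZMod M) = v 0 then F (zetaC M ^ (v' 1) * x ^ A) else 0 with hg
  have hb : zetaC M ^ (v' 1) = zetaC M ^ (v 1).val := zetaC_zpow_eq M (by simp [hvdef])
  have hb' : zetaC M ^ (-v' 1) = zetaC M ^ (-v 1).val := zetaC_zpow_eq M (by simp [hvdef])
  have hneg : ∀ n : ℕ, F (zetaC M ^ (v' 1) * x ^ (-(n : ℤ))) =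
      s * F (zetaC M ^ (-v 1).val * x ^ n) := by
    intro n
    rw [hs, ← hF.inv, ← hb']
    congr 1
    rw [mul_inv, zpow_neg, zpow_neg, zpow_natCast, inv_inv]
  set ga : ℕ+ → ℂ := fun a =>
    (if ((a : ℕ) : ZMod M) = v 0 then F (zetaC M ^ (v 1).val * x ^ (a : ℕ)) else 0) +
    s * (if ((a : ℕ) : ZMod M) = -v 0 then F (zetaC M ^ (-v 1).val * x ^ (a : ℕ)) else 0) with hga
  have hga' : ∀ a : ℕ+, g ((a : ℕ) : ℤ) + g (-((a : ℕ) : ℤ)) = ga a := by
    intro a
    simp only [hg, hga, Int.cast_neg, Int.cast_natCast, hneg, mul_ite, mul_zero, neg_eq_iff_eq_neg]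
    rw [hb, zpow_natCast]
  have hinner : ∀ a : ℕ+, HasSum (fun r : ℕ+ => T (a, r)) (ga a) := by
    intro a
    simp only [hT, hw, hga, mul_add, add_mul]
    refine HasSum.add ?_ ?_
    · split_ifs
      · exact hrow (v 1).val a
      · simp [hasSum_zero]
    · split_ifs
      · exact ((hrow (-v 1).val a).mul_left s).congr_fun fun r => by ring
      · simp [hasSum_zero]
  have hsumga : HasSum ga (∑' p, T p) := hsum.hasSum.prod_fiberwise hinner
  have hg0 : g 0 = c 0 := by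
    simp only [hg, Int.cast_zero, zpow_zero, mul_one, hb, hc0, eq_comm, hvdef]
  have hnat : HasSum (fun e : ℕ => c e * x ^ e) (∑' p, T p + c 0) := by
    simpa using (hasSum_pnat_iff (f := fun e : ℕ => c e * x ^ e)).mp hpos
  refine ⟨hnat.summable, ?_⟩
  have hhalf : ∀ e : ℤ, (e = 1 ∨ e = -1) → Summable fun n : ℕ => g (e * (n : ℤ)) := by
    intro e he
    have hbd := hF.norm_zetaC_mul_le M hx
    refine summable_pnat_iff_summable_nat.mp (Summable.of_norm_bounded hb0.prod fun a => ?_)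
    simp only [hg]
    split_ifs with hh
    · rcases he with rfl | rfl
      · rw [one_mul, hb, zpow_natCast]; exact hbd a _
      · rw [neg_one_mul, hneg, norm_mul, hs1, one_mul]; exact hbd a _
    · simpa using tsum_nonneg fun r => by positivity
  have h1 : Summable g :=
    Summable.of_nat_of_neg (by simpa using hhalf 1 (Or.inl rfl))
      (by simpa using hhalf (-1) (Or.inr rfl))
  have h4 := (hasSum_pnat_iff (f := fun n : ℕ => g (n : ℤ) + g (-(n : ℤ)))).mp
    (hsumga.congr_fun hga')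
  have h5 : ∑' A, g A = ∑' e : ℕ, c e * x ^ e := by
    have := h1.hasSum.nat_add_neg.unique h4
    rw [hnat.tsum_eq]
    simp only [Nat.cast_zero, neg_zero] at this
    linear_combination this + hg0
  have hinj : Function.Injective fun m : ℤ => v' 0 - m * M := fun m m' h => by
    simpa [NeZero.ne M] using h
  refine ((hinj.hasSum_iff ?_).mpr (h5 ▸ h1.hasSum)).congr_fun fun m => ?_
  · intro A hA
    simp only [hg]
    rw [if_neg]
    intro h
    obtain ⟨k, hk⟩ := (ZMod.intCast_eq_intCast_iff_dvd_sub A (v' 0) M).mp (by simpa [hvdef] using h)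
    exact hA ⟨k, by simp only; linarith⟩
  · simp [hg, hvdef]

theorem divCoeff_rows (u : Fin 2 → ℤ) (τ : ℍ) :
    (Summable fun e : ℕ => divCoeff M (zetaC M) (fun i => (u i : ZMod M)) e * qm M τ ^ e) ∧
    HasSum (fun m : ℤ => kFun (zetaC M ^ (u 1) * qm M τ ^ (u 0 - m * M)))
      (∑' e : ℕ, divCoeff M (zetaC M) (fun i => (u i : ZMod M)) e * qm M τ ^ e) :=
  rowKernel_kFun.hasSum_rows M (by simp [divCoeff, kFun]) (fun e he => by simp [divCoeff, he]) τ

/-- The expansion of `dif M v w` in `e^{2πiτ/M}` is `difSeries M ζ v w`. -/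
theorem hasExp_dif {v w : Fin 2 → ZMod M} (hv : v ≠ 0) (hw : w ≠ 0) :
    HasExp M (dif M v w) (difSeries M (zetaC M) v w) := by
  intro τ
  have hlift : ∀ {u : Fin 2 → ZMod M}, u ≠ 0 → ¬ ∀ i, ((liftVec M u i : ℤ) : ZMod M) = 0 :=
    fun hu h => hu (funext fun i => by simpa using h i)
  have hrow := fun {u : Fin 2 → ZMod M} (hu : u ≠ 0) (m : ℤ) =>
    rowKernel_kFun.hasSum_row M (hlift hu) τ m
  have h := ((hasSum_difTerm (zPt M (liftVec M v) τ) (zPt M (liftVec M w) τ) τ).prod_fiberwise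
    fun m => (hrow hv m).sub (hrow hw m)).mul_left ((2 * (π : ℂ) * Complex.I) ^ 2)⁻¹
  simp only [Nat.reduceAdd, Nat.factorial_one, Nat.cast_one, div_one, neg_mul, neg_sq, ← mul_sub,
    inv_mul_cancel_left₀ (pow_ne_zero 2 Complex.two_pi_I_ne_zero)] at h
  obtain ⟨sv, rv⟩ := divCoeff_rows M (liftVec M v) τ
  obtain ⟨sw, rw'⟩ := divCoeff_rows M (liftVec M w) τ
  rw [dif, h.unique (rv.sub rw')]
  simp only [cast_liftVec] at sv sw ⊢
  refine (sv.hasSum.sub sw.hasSum).congr_fun fun e => ?_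
  simp only [difSeries, PowerSeries.coeff_mk]
  ring

end FermatAgent.ES
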